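import Mathlib
import Fermat.Prelude.Def_FLTPrelim_Modularity
import Fermat.Prelude.Def_ModularForm_HeckeOperatorForms
import Fermat.Prelude.Thm_ModularFormClass_qCoeff_heckeU
import Fermat.Prelude.Thm_CongruenceSubgroup_one_mem_strictPeriods_Gamma0
import Fermat.Prelude.Thm_ModularForm_mdifferentiable_heckeU
import Fermat.Prelude.Thm_ModularForm_isBoundedAtImInfty_heckeU
import Fermat.Prelude.Thm_ModularForm_periodic_heckeU_comp_ofComplex
import Fermat.Agent.Lib.Eis.Level.Translate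

/-!
# P11 (S16), package P: the expansion at the cusp `0` of a weight 2 form on `Γ₀(p)`

For `G ∈ M₂(Γ₀(p))`: `Tr (G ∣ W) ∈ M₂(SL(2, ℤ)) = 0`, hence `G ∣ W = - U_p G` and
`(G ∣ S)(z) = -(1/p) (U_p G)(z/p)`.
-/

set_option autoImplicit false

open scoped MatrixGroups ModularForm
open UpperHalfPlane ModularGroup CongruenceSubgroup Matrix.SpecialLinearGroup ModularForm
  ModularFormClass

namespace Fermat.Agent.Eis

/-- level one forms of weight 2 vanish -/
theorem levelOne_weight_two_eq_zero (T : ModularForm 𝒮ℒ 2) : T = 0 := by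
  have h := levelOne_weight_two_rank_zero
  rw [rank_zero_iff_forall_zero] at h
  exact h T

/-- in weight 2, the slash action only depends on the matrix up to scalars -/
theorem slash_two_eq_of_smul {g g' : GL (Fin 2) ℝ} (hg' : 0 < (g'.det : ℝ)) (c : ℝ) (hc : c ≠ 0)
    (h : (g : Matrix (Fin 2) (Fin 2) ℝ) = c • (g' : Matrix (Fin 2) (Fin 2) ℝ)) (f : ℍ → ℂ) :
    f ∣[(2 : ℤ)] g = f ∣[(2 : ℤ)] g' := by
  have hc' : (c : ℂ) ≠ 0 := by exact_mod_cast hc
  have hdet : (g.det : ℝ) = c ^ 2 * (g'.det : ℝ) := by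
    rw [Matrix.GeneralLinearGroup.val_det_apply, Matrix.GeneralLinearGroup.val_det_apply, h,
      Matrix.det_smul]
    simp
  have hg : 0 < (g.det : ℝ) := by rw [hdet]; positivity
  have hσ : σ g = .refl ℝ ℂ := by rw [σ, if_pos hg]
  have hσ' : σ g' = .refl ℝ ℂ := by rw [σ, if_pos hg']
  have hnum : ∀ z : ℂ, num g z = c * num g' z := by
    intro z
    have h00 : (g 0 0 : ℝ) = c * g' 0 0 := by
      have := congrFun (congrFun h 0) 0; simpa using this
    have h01 : (g 0 1 : ℝ) = c * g' 0 1 := by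
      have := congrFun (congrFun h 0) 1; simpa using this
    simp only [num, h00, h01]
    push_cast
    ring
  have hden : ∀ z : ℂ, denom g z = c * denom g' z := by
    intro z
    have h10 : (g 1 0 : ℝ) = c * g' 1 0 := by
      have := congrFun (congrFun h 1) 0; simpa using this
    have h11 : (g 1 1 : ℝ) = c * g' 1 1 := by
      have := congrFun (congrFun h 1) 1; simpa using this
    simp only [denom, h10, h11]
    push_cast
    ring
  have hsmul : ∀ τ : ℍ, g • τ = g' • τ := by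
    intro τ
    apply UpperHalfPlane.ext
    rw [coe_smul_of_det_pos hg, coe_smul_of_det_pos hg', hnum, hden, mul_div_mul_left _ _ hc']
  ext τ
  rw [slash_apply, slash_apply, hσ, hσ', hsmul, hdet, hden]
  simp only [ContinuousAlgEquiv.refl_apply]
  have h1 : |c ^ 2 * (g'.det : ℝ)| = c ^ 2 * |(g'.det : ℝ)| := by
    rw [abs_mul, abs_of_nonneg (sq_nonneg c)]
  rw [h1]
  have hd : denom g' (τ : ℂ) ≠ 0 := denom_ne_zero g' τ
  push_cast
  rw [zpow_one, zpow_one, zpow_neg, zpow_neg, mul_zpow]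
  field_simp

variable (p : ℕ) [hpF : Fact p.Prime]

local notation "Γ₀'" => (Subgroup.map (mapGL ℝ) (Gamma0 p))

/-- **`G ∣ W = - U_p G`** for `G` of weight 2 on `Γ₀(p)`. -/
theorem slash_atkinW_eq (G : ModularForm Γ₀' 2) :
    ⇑G ∣[(2 : ℤ)] atkinW p = - heckeU 2 p ⇑G := by
  have h0 := levelOne_weight_two_eq_zero (ModularForm.trace 𝒮ℒ (atkinLehner p G))
  have h1 := coe_trace_gamma0 p (atkinLehner p G)
  rw [h0, coe_atkinLehner] at h1
  have h2 : ∀ b ∈ Finset.range p, ((⇑G ∣[(2 : ℤ)] atkinW p) ∣[(2 : ℤ)] (egRep b)) =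
      ⇑G ∣[(2 : ℤ)] heckeMatrix p b := by
    intro b _
    rw [SL_slash, ← SlashAction.slash_mul]
    congr 1
    exact atkinW_mul_egRep p b
  rw [Finset.sum_congr rfl h2, ← heckeU_def] at h1
  rw [eq_neg_iff_add_eq_zero]
  exact h1.symm

theorem atkinW_mul_heckeMatrix_zero :
    ((atkinW p * heckeMatrix p 0 : GL (Fin 2) ℝ) : Matrix (Fin 2) (Fin 2) ℝ) =
      (-(p : ℝ)) • ((mapGL ℝ S : GL (Fin 2) ℝ) : Matrix (Fin 2) (Fin 2) ℝ) := by
  ext i j
  rw [Matrix.GeneralLinearGroup.coe_mul, mapGL_coe_matrix, val_atkinW,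
    val_heckeMatrix hpF.out.ne_zero, Matrix.SpecialLinearGroup.map_apply_coe, coe_S]
  fin_cases i <;> fin_cases j <;> simp [Matrix.mul_apply, Fin.sum_univ_two]

/-- **`(G ∣ S)(z) = -(1/p) (U_p G)(z/p)`** in slash form. -/
theorem slash_S_eq_slash_heckeMatrix (G : ModularForm Γ₀' 2) :
    ⇑G ∣[(2 : ℤ)] S = (- heckeU 2 p ⇑G) ∣[(2 : ℤ)] heckeMatrix p 0 := by
  rw [← slash_atkinW_eq, ← SlashAction.slash_mul, SL_slash]
  refine (slash_two_eq_of_smul ?_ (-(p : ℝ)) ?_ (atkinW_mul_heckeMatrix_zero p) _).symm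
  · rw [Matrix.SpecialLinearGroup.det_mapGL]; simp
  · have : (p : ℝ) ≠ 0 := by exact_mod_cast hpF.out.ne_zero
    simpa using this

theorem slash_S_apply (G : ModularForm Γ₀' 2) (z : ℍ) :
    (⇑G ∣[(2 : ℤ)] S) z = -(p : ℂ)⁻¹ * heckeU 2 p ⇑G (heckeMatrix p 0 • z) := by
  rw [slash_S_eq_slash_heckeMatrix, slash_heckeMatrix_apply 2 hpF.out.ne_zero]
  simp

/-- the `q`-expansion of `U_p G` evaluated at `z/p` -/
theorem hasSum_heckeU_heckeMatrix_smul (G : ModularForm Γ₀' 2) (z : ℍ) :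
    HasSum (fun n : ℕ => qCoeff ⇑G (n * p) *
        Complex.exp (2 * Real.pi * Complex.I * n * z / p))
      (heckeU 2 p ⇑G (heckeMatrix p 0 • z)) := by
  have hΓ : (1 : ℝ) ∈ (Γ₀').strictPeriods := CongruenceSubgroup.one_mem_strictPeriods_Gamma0 p
  have hper : Function.Periodic (⇑G ∘ UpperHalfPlane.ofComplex) 1 :=
    SlashInvariantFormClass.periodic_comp_ofComplex G hΓ
  have hbdd : IsBoundedAtImInfty ⇑G := ModularFormClass.bdd_at_infty G
  have hs := UpperHalfPlane.hasSum_qExpansion one_pos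
    (periodic_heckeU_comp_ofComplex hper 2 p)
    (mdifferentiable_heckeU (ModularFormClass.holo G) 2 p)
    (isBoundedAtImInfty_heckeU hbdd 2 p) (heckeMatrix p 0 • z)
  convert hs using 2 with n
  have h1 : (qExpansion 1 (heckeU 2 p ⇑G)).coeff n = qCoeff ⇑G (n * p) :=
    ModularFormClass.qCoeff_heckeU G hΓ hpF.out.ne_zero n
  rw [h1, smul_eq_mul]
  congr 1
  rw [Function.Periodic.qParam, coe_heckeMatrix_smul hpF.out.ne_zero, ← Complex.exp_nat_mul]
  congr 1
  push_cast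
  ring

/-- **(P-S)** `(G ∣ S)(z) = -(1/p) ∑ a_{np}(G) e^{2π i n z / p}`. -/
theorem slash_S_eq (G : ModularForm Γ₀' 2) (z : ℍ) :
    (⇑G ∣[(2 : ℤ)] S) z =
      -(1 / (p : ℂ)) * ∑' n : ℕ, qCoeff ⇑G (n * p) *
        Complex.exp (2 * Real.pi * Complex.I * n * z / p) := by
  rw [slash_S_apply, (hasSum_heckeU_heckeMatrix_smul p G z).tsum_eq, one_div]

end Fermat.Agent.Eis
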