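import Mathlib
import Fermat.Prelude.Thm_UpperHalfPlane_qCoeff_heckeT
import Fermat.Prelude.Thm_UpperHalfPlane_qCoeff_heckeU
import Fermat.Agent.Lib.Eis.QSeries
import Fermat.Agent.Lib.Eis.Level.SlashS

/-!
# P11 (S16), package P: traces of `V_p F` and `G · V_p F` to level one

For `F` of level one and weight `K`, and `G` of weight 2 on `Γ₀(p)`:

* `levelOneHeckeT p F = Tr (F ∣ diag(p,1))` is the level one Hecke operator `T_p F`;
* `exists_trace_psV`: `p^(1-K) T_p F` has `q`-expansion `V_p F + p^(1-K) U_p F`;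
* `exists_trace_mul_psV`: `p^(1-K) Tr (G · F ∣ diag(p, 1))` has `q`-expansion
  `G · V_p F - p^(-K) U_p (F · U_p G)`.
-/

set_option autoImplicit false

open scoped MatrixGroups ModularForm
open UpperHalfPlane ModularGroup CongruenceSubgroup Matrix.SpecialLinearGroup ModularForm
  ModularFormClass

namespace Fermat.Agent.Eis

/-- restriction of a modular form to a subgroup -/
noncomputable def mfRestrict {Γ Γ' : Subgroup (GL (Fin 2) ℝ)} {k : ℤ} (f : ModularForm Γ k)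
    (h : Γ' ≤ Γ) : ModularForm Γ' k where
  toFun := ⇑f
  slash_action_eq' γ hγ := f.slash_action_eq' γ (h hγ)
  holo' := f.holo'
  bdd_at_cusps' hc := f.bdd_at_cusps' (hc.mono h)

theorem coe_mfRestrict {Γ Γ' : Subgroup (GL (Fin 2) ℝ)} {k : ℤ} (f : ModularForm Γ k)
    (h : Γ' ≤ Γ) : ⇑(mfRestrict f h) = ⇑f := rfl

variable (p : ℕ) [hpF : Fact p.Prime]

local notation "Γ₀'" => (Subgroup.map (mapGL ℝ) (Gamma0 p))

theorem gamma0_le_SL : Γ₀' ≤ 𝒮ℒ := by
  rintro x ⟨γ, -, rfl⟩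
  exact ⟨γ, rfl⟩

theorem one_mem_strictPeriods_gamma0 : (1 : ℝ) ∈ (Γ₀').strictPeriods :=
  CongruenceSubgroup.one_mem_strictPeriods_Gamma0 p

/-! ### Slashing `F ∣ diag(p, 1)` by the coset representatives -/

theorem slash_heckeDiagMatrix_slash_egRep {K : ℤ} (F : ModularForm 𝒮ℒ K) (b : ℕ) :
    (⇑F ∣[K] heckeDiagMatrix p) ∣[K] (egRep b) = ⇑F ∣[K] heckeMatrix p b := by
  rw [SL_slash, ← SlashAction.slash_mul]
  have h1 : heckeDiagMatrix p * ((egRep b : SL(2, ℤ)) : GL (Fin 2) ℝ) =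
      mapGL ℝ S * heckeMatrix p b := heckeDiagMatrix_mul_egRep p b
  rw [h1, SlashAction.slash_mul]
  congr 1
  exact SlashInvariantFormClass.slash_action_eq F _ ⟨S, rfl⟩

/-- the level one Hecke operator `T_p` -/
noncomputable def levelOneHeckeT {K : ℤ} (F : ModularForm 𝒮ℒ K) : ModularForm 𝒮ℒ K :=
  ModularForm.trace 𝒮ℒ (levelRaise p F)

theorem coe_levelOneHeckeT {K : ℤ} (F : ModularForm 𝒮ℒ K) :
    ⇑(levelOneHeckeT p F) = heckeT K p ⇑F := by
  rw [levelOneHeckeT, coe_trace_gamma0, coe_levelRaise, heckeT_def, add_comm]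
  congr 1
  exact Finset.sum_congr rfl fun b _ => slash_heckeDiagMatrix_slash_egRep p F b

theorem qCoeff_levelOneHeckeT {K : ℤ} (F : ModularForm 𝒮ℒ K) (n : ℕ) :
    qCoeff ⇑(levelOneHeckeT p F) n = coeffHeckeT K p (qCoeff ⇑F) n := by
  rw [coe_levelOneHeckeT]
  exact UpperHalfPlane.qCoeff_heckeT
    (SlashInvariantFormClass.periodic_comp_ofComplex F one_mem_strictPeriods_SL)
    (ModularFormClass.holo F) (ModularFormClass.bdd_at_infty F) K hpF.out.ne_zero n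

/-- **(P-Tr1)** -/
theorem exists_trace_psV (K : ℤ) (F : ModularForm 𝒮ℒ K) :
    ∃ T : ModularForm 𝒮ℒ K, qExpansion 1 T =
      psV p (qExpansion 1 F) + (p : ℂ) ^ (1 - K) • psU p (qExpansion 1 F) := by
  have hp0 : (p : ℂ) ≠ 0 := by exact_mod_cast hpF.out.ne_zero
  refine ⟨(p : ℂ) ^ (1 - K) • levelOneHeckeT p F, ?_⟩
  rw [FunLike.coe_smul,
    ModularForm.qExpansion_smul one_pos one_mem_strictPeriods_SL]
  ext n
  have h1 : (qExpansion 1 ⇑(levelOneHeckeT p F)).coeff n = coeffHeckeT K p (qCoeff ⇑F) n :=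
    qCoeff_levelOneHeckeT p F n
  rw [PowerSeries.coeff_smul, h1, coeffHeckeT_apply, map_add, PowerSeries.coeff_smul, coeff_psU,
    coeff_psV, smul_eq_mul, smul_eq_mul, mul_add, add_comm]
  congr 1
  split_ifs with h
  · rw [← mul_assoc, ← zpow_add₀ hp0, show 1 - K + (K - 1) = 0 by ring, zpow_zero, one_mul]
    rfl
  · rw [mul_zero]

/-! ### The trace of `G · F ∣ diag(p, 1)` -/

theorem heckeMatrix_zero_mul_T_zpow (b : ℕ) :
    heckeMatrix p 0 * ((T ^ (b : ℤ) : SL(2, ℤ)) : GL (Fin 2) ℝ) = heckeMatrix p b := by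
  apply Matrix.GeneralLinearGroup.ext
  intro i j
  have h1 : (((T ^ (b : ℤ) : SL(2, ℤ)) : GL (Fin 2) ℝ) : Matrix (Fin 2) (Fin 2) ℝ) =
      !![1, (b : ℝ); 0, 1] := by
    show ((mapGL ℝ (T ^ (b : ℤ)) : GL (Fin 2) ℝ) : Matrix (Fin 2) (Fin 2) ℝ) = _
    rw [mapGL_coe_matrix, Matrix.SpecialLinearGroup.map_apply_coe, coe_T_zpow]
    ext i j
    fin_cases i <;> fin_cases j <;> simp
  rw [Matrix.GeneralLinearGroup.coe_mul, h1, val_heckeMatrix hpF.out.ne_zero,
    val_heckeMatrix hpF.out.ne_zero]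
  fin_cases i <;> fin_cases j <;> simp [Matrix.mul_apply, Fin.sum_univ_two]

/-- `G ∣ S T^b = (- U_p G) ∣ [[1, b], [0, p]]` -/
theorem slash_egRep_eq (G : ModularForm Γ₀' 2) (b : ℕ) :
    ⇑G ∣[(2 : ℤ)] (egRep b) = (- heckeU 2 p ⇑G) ∣[(2 : ℤ)] heckeMatrix p b := by
  rw [egRep, SlashAction.slash_mul, slash_S_eq_slash_heckeMatrix, SL_slash,
    ← SlashAction.slash_mul, heckeMatrix_zero_mul_T_zpow]

theorem slash_heckeMatrix_mul_slash_heckeMatrix (k1 k2 : ℤ) (f g : ℍ → ℂ) (b : ℕ) :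
    (f ∣[k1] heckeMatrix p b) * (g ∣[k2] heckeMatrix p b) =
      (p : ℂ)⁻¹ • ((f * g) ∣[k1 + k2] heckeMatrix p b) := by
  have hp0 : (p : ℂ) ≠ 0 := by exact_mod_cast hpF.out.ne_zero
  rw [mul_slash, det_heckeMatrix hpF.out.ne_zero]
  ext z
  simp only [Pi.smul_apply, Pi.mul_apply, Nat.abs_cast, Complex.real_smul, Complex.ofReal_natCast,
    smul_eq_mul]
  field_simp

/-- the trace of `G · F ∣ diag(p, 1)` -/
theorem coe_trace_mul_levelRaise {K : ℤ} (G : ModularForm Γ₀' 2) (F : ModularForm 𝒮ℒ K) :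
    ⇑(ModularForm.trace 𝒮ℒ (G.mul (levelRaise p F))) =
      ⇑G * (⇑F ∣[K] heckeDiagMatrix p) -
        (p : ℂ)⁻¹ • heckeU (2 + K) p (heckeU 2 p ⇑G * ⇑F) := by
  rw [coe_trace_gamma0, ModularForm.coe_mul, coe_levelRaise, sub_eq_add_neg]
  congr 1
  have h : ∀ b ∈ Finset.range p,
      ((⇑G * (⇑F ∣[K] heckeDiagMatrix p)) ∣[(2 : ℤ) + K] (egRep b)) =
        -((p : ℂ)⁻¹ • ((heckeU 2 p ⇑G * ⇑F) ∣[(2 : ℤ) + K] heckeMatrix p b)) := by
    intro b _
    rw [mul_slash_SL2, slash_egRep_eq, slash_heckeDiagMatrix_slash_egRep,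
      slash_heckeMatrix_mul_slash_heckeMatrix, neg_mul, SlashAction.neg_slash, smul_neg]
  rw [Finset.sum_congr rfl h, Finset.sum_neg_distrib, ← Finset.smul_sum, ← heckeU_def]

/-! ### `q`-expansions -/

theorem qExpansion_heckeU_coe {k : ℤ} (H : ModularForm Γ₀' k) :
    qExpansion 1 (heckeU k p ⇑H) = psU p (qExpansion 1 ⇑H) := by
  ext n
  rw [coeff_psU]
  exact ModularFormClass.qCoeff_heckeU H (one_mem_strictPeriods_gamma0 p) hpF.out.ne_zero n

theorem qParam_heckeDiagMatrix_smul (τ : ℍ) :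
    Function.Periodic.qParam 1 ((heckeDiagMatrix p • τ : ℍ) : ℂ) =
      Function.Periodic.qParam 1 (τ : ℂ) ^ p := by
  rw [Function.Periodic.qParam, Function.Periodic.qParam, coe_heckeDiagMatrix_smul hpF.out.ne_zero,
    ← Complex.exp_nat_mul]
  congr 1
  push_cast
  ring

theorem qExpansion_levelRaise {K : ℤ} (F : ModularForm 𝒮ℒ K) :
    qExpansion 1 ⇑(levelRaise p F) = (p : ℂ) ^ (K - 1) • psV p (qExpansion 1 ⇑F) := by
  ext m
  symm
  refine ModularFormClass.qExpansion_coeff_unique (f := levelRaise p F)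
    (c := fun m => PowerSeries.coeff m ((p : ℂ) ^ (K - 1) • psV p (qExpansion 1 ⇑F)))
    one_pos (one_mem_strictPeriods_gamma0 p) (fun τ => ?_) m
  have hF := ModularForm.hasSum_qExpansion (f := F) one_pos one_mem_strictPeriods_SL
    (heckeDiagMatrix p • τ)
  rw [qParam_heckeDiagMatrix_smul] at hF
  have hF2 := hF.mul_left ((p : ℂ) ^ (K - 1))
  rw [coe_levelRaise, slash_heckeDiagMatrix_apply K hpF.out.ne_zero]
  have hinj : Function.Injective (fun n : ℕ => n * p) :=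
    fun a b h => Nat.eq_of_mul_eq_mul_right hpF.out.pos h
  rw [← hinj.hasSum_iff]
  · have hfun : ((fun m => PowerSeries.coeff m ((p : ℂ) ^ (K - 1) • psV p (qExpansion 1 ⇑F)) •
        Function.Periodic.qParam 1 (τ : ℂ) ^ m) ∘ fun n : ℕ => n * p) =
        fun i => (p : ℂ) ^ (K - 1) * (PowerSeries.coeff i (qExpansion 1 ⇑F) *
          (Function.Periodic.qParam 1 (τ : ℂ) ^ p) ^ i) := by
      funext n
      simp only [Function.comp_apply, PowerSeries.coeff_smul, coeff_psV_mul hpF.out.ne_zero,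
        smul_eq_mul]
      rw [pow_mul']
      ring
    rw [hfun]
    exact hF2
  · intro m hm
    have hnd : ¬ p ∣ m := by
      rintro ⟨k, rfl⟩
      exact hm ⟨k, by simp [mul_comm]⟩
    show PowerSeries.coeff m ((p : ℂ) ^ (K - 1) • psV p (qExpansion 1 ⇑F)) •
      Function.Periodic.qParam 1 (τ : ℂ) ^ m = 0
    rw [PowerSeries.coeff_smul, coeff_psV_of_not_dvd hnd]
    simp

/-- **(P-Tr2)** -/
theorem exists_trace_mul_psV (K : ℤ) (G : ModularForm Γ₀' 2) (F : ModularForm 𝒮ℒ K) :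
    ∃ T : ModularForm 𝒮ℒ (K + 2), qExpansion 1 T =
      qExpansion 1 G * psV p (qExpansion 1 F) -
        (p : ℂ) ^ (-K) • psU p (qExpansion 1 F * psU p (qExpansion 1 G)) := by
  have hp0 : (p : ℂ) ≠ 0 := by exact_mod_cast hpF.out.ne_zero
  have : NeZero p := ⟨hpF.out.ne_zero⟩
  refine ⟨ModularForm.mcast (add_comm 2 K)
    ((p : ℂ) ^ (1 - K) • ModularForm.trace 𝒮ℒ (G.mul (levelRaise p F))), ?_⟩
  rw [ModularForm.qExpansion_mcast, FunLike.coe_smul,
    ModularForm.qExpansion_smul one_pos one_mem_strictPeriods_SL]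
  -- the trace as a form on `Γ₀(p)`
  set U : ModularForm Γ₀' 2 := heckeULin 2 (dvd_refl p) G with hU
  set F' : ModularForm Γ₀' K := mfRestrict F (gamma0_le_SL p) with hF'
  set H : ModularForm Γ₀' (2 + K) := heckeULin (2 + K) (dvd_refl p) (U.mul F') with hH
  have hcoe : ⇑(ModularForm.trace 𝒮ℒ (G.mul (levelRaise p F))) =
      ⇑(G.mul (levelRaise p F) - (p : ℂ)⁻¹ • H) := by
    rw [coe_trace_mul_levelRaise]
    rfl
  have hΓ := one_mem_strictPeriods_gamma0 p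
  rw [hcoe, FunLike.coe_sub, ModularForm.qExpansion_sub one_pos hΓ, FunLike.coe_smul,
    ModularForm.qExpansion_smul one_pos hΓ,
    ModularForm.qExpansion_mul one_pos hΓ, qExpansion_levelRaise]
  have hHq : qExpansion 1 ⇑H = psU p (qExpansion 1 ⇑F * psU p (qExpansion 1 ⇑G)) := by
    rw [hH, coe_heckeULin_apply, qExpansion_heckeU_coe,
      ModularForm.qExpansion_mul one_pos hΓ, hU, coe_heckeULin_apply, qExpansion_heckeU_coe,
      hF', coe_mfRestrict, mul_comm]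
  rw [hHq, smul_sub, mul_smul_comm, smul_smul, smul_smul, ← zpow_add₀ hp0,
    show 1 - K + (K - 1) = 0 by ring, zpow_zero, one_smul, ← zpow_neg_one, ← zpow_add₀ hp0,
    show 1 - K + -1 = -K by ring]

end Fermat.Agent.Eis
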