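import Mathlib
import Fermat.Agent.Lib.Eis.Defs
import Fermat.Agent.Lib.Eis.Level.TraceProd

/-!
# P11 (S16), package P: the weight 2 Eisenstein series of level `p`

`eisForm p = -(1/24) (E₂(z) - p E₂(p z)) = (p-1)/24 + ∑ σ'(n) q^n ∈ M₂(Γ₀(p))`.
-/

set_option autoImplicit false

open scoped MatrixGroups ModularForm
open UpperHalfPlane ModularGroup CongruenceSubgroup Matrix.SpecialLinearGroup ModularForm
  ModularFormClass EisensteinSeries

namespace Fermat.Agent.Eis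

variable (p : ℕ) [hpF : Fact p.Prime]

local notation "Γ₀'" => (Subgroup.map (mapGL ℝ) (Gamma0 p))

/-- `E₂(z) - p E₂(p z)` -/
noncomputable def eisFun : ℍ → ℂ := E2 - E2 ∣[(2 : ℤ)] heckeDiagMatrix p

theorem eisFun_apply (z : ℍ) :
    eisFun p z = E2 z - (p : ℂ) * E2 (heckeDiagMatrix p • z) := by
  rw [eisFun, Pi.sub_apply, slash_heckeDiagMatrix_apply 2 hpF.out.ne_zero]
  norm_num

/-! ### Invariance under `Γ₀(p)` -/

/-- `diag(p,1) γ = γ' diag(p,1)` with `γ'` explicit -/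
theorem exists_heckeDiagMatrix_mul_eq {γ : SL(2, ℤ)} (hγ : γ ∈ Gamma0 p) :
    ∃ γ' : SL(2, ℤ), heckeDiagMatrix p * mapGL ℝ γ = mapGL ℝ γ' * heckeDiagMatrix p ∧
      (γ' 1 0 : ℤ) * p = γ 1 0 ∧ (γ' 1 1 : ℤ) = γ 1 1 := by
  obtain ⟨c', hc'⟩ := exists_lower_left_eq p hγ
  have hdet := γ.det_coe
  rw [Matrix.det_fin_two, hc'] at hdet
  let γ' : SL(2, ℤ) := ⟨!![γ 0 0, p * γ 0 1; c', γ 1 1], by
    rw [Matrix.det_fin_two_of]; linarith⟩
  refine ⟨γ', ?_, ?_, ?_⟩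
  · apply Matrix.GeneralLinearGroup.ext
    intro i j
    rw [Matrix.GeneralLinearGroup.coe_mul, Matrix.GeneralLinearGroup.coe_mul, mapGL_coe_matrix,
      mapGL_coe_matrix, val_heckeDiagMatrix hpF.out.ne_zero]
    fin_cases i <;> fin_cases j <;>
      simp [Matrix.mul_apply, Fin.sum_univ_two, γ', hc', mul_comm]
  · simp [γ', hc', mul_comm]
  · simp [γ']

theorem D2_slash_heckeDiagMatrix (γ γ' : SL(2, ℤ)) (h10 : (γ' 1 0 : ℤ) * p = γ 1 0)
    (h11 : (γ' 1 1 : ℤ) = γ 1 1) :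
    (D2 γ') ∣[(2 : ℤ)] heckeDiagMatrix p = D2 γ := by
  ext z
  rw [slash_heckeDiagMatrix_apply 2 hpF.out.ne_zero]
  simp only [D2, ModularGroup.denom_apply]
  rw [coe_heckeDiagMatrix_smul hpF.out.ne_zero, ← h10, ← h11]
  push_cast
  have hd : ((γ' 1 0 : ℤ) : ℂ) * ((p : ℂ) * (z : ℂ)) + ((γ' 1 1 : ℤ) : ℂ) ≠ 0 := by
    have := denom_ne_zero (γ' : GL (Fin 2) ℝ) (heckeDiagMatrix p • z)
    rw [ModularGroup.denom_apply, coe_heckeDiagMatrix_smul hpF.out.ne_zero] at this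
    exact this
  have hd' : ((γ' 1 0 : ℤ) : ℂ) * (p : ℂ) * (z : ℂ) + ((γ' 1 1 : ℤ) : ℂ) ≠ 0 := by
    rwa [mul_assoc]
  norm_num
  field_simp

theorem eis_sub_slash (k : ℤ) (A : GL (Fin 2) ℝ) (f g : ℍ → ℂ) :
    (f - g) ∣[k] A = f ∣[k] A - g ∣[k] A := by
  rw [sub_eq_add_neg, SlashAction.add_slash, SlashAction.neg_slash, ← sub_eq_add_neg]

theorem eisFun_slash_SL {γ : SL(2, ℤ)} (hγ : γ ∈ Gamma0 p) :
    eisFun p ∣[(2 : ℤ)] γ = eisFun p := by
  obtain ⟨γ', hmul, h10, h11⟩ := exists_heckeDiagMatrix_mul_eq p hγ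
  have h1 : E2 ∣[(2 : ℤ)] γ = E2 - (1 / (2 * riemannZeta 2)) • D2 γ := E2_slash_action γ
  have h2 : (E2 ∣[(2 : ℤ)] heckeDiagMatrix p) ∣[(2 : ℤ)] γ =
      E2 ∣[(2 : ℤ)] heckeDiagMatrix p - (1 / (2 * riemannZeta 2)) • D2 γ := by
    rw [SL_slash, ← SlashAction.slash_mul]
    have hmul' : heckeDiagMatrix p * ((γ : SL(2, ℤ)) : GL (Fin 2) ℝ) =
        ((γ' : SL(2, ℤ)) : GL (Fin 2) ℝ) * heckeDiagMatrix p := hmul
    rw [hmul', SlashAction.slash_mul, ← SL_slash, E2_slash_action γ', eis_sub_slash, smul_slash,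
      σ_heckeDiagMatrix, D2_slash_heckeDiagMatrix p γ γ' h10 h11]
    rfl
  rw [eisFun, SL_slash, eis_sub_slash, ← SL_slash, ← SL_slash, h1, h2]
  abel

/-! ### The cusp `0` -/

theorem D2_S_slash_heckeMatrix_zero :
    (D2 S) ∣[(2 : ℤ)] heckeMatrix p 0 = D2 S := by
  have hp0 : (p : ℂ) ≠ 0 := by exact_mod_cast hpF.out.ne_zero
  ext z
  rw [slash_heckeMatrix_apply 2 hpF.out.ne_zero, D2_S, D2_S,
    coe_heckeMatrix_smul hpF.out.ne_zero]
  have hz : (z : ℂ) ≠ 0 := UpperHalfPlane.ne_zero z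
  push_cast
  rw [add_zero]
  field_simp

theorem egRep_zero : egRep 0 = S := by simp [egRep]

theorem eisFun_slash_S :
    eisFun p ∣[(2 : ℤ)] S = E2 - E2 ∣[(2 : ℤ)] heckeMatrix p 0 := by
  have h1 : E2 ∣[(2 : ℤ)] S = E2 - (1 / (2 * riemannZeta 2)) • D2 S := E2_slash_action S
  have h2 : (E2 ∣[(2 : ℤ)] heckeDiagMatrix p) ∣[(2 : ℤ)] S =
      E2 ∣[(2 : ℤ)] heckeMatrix p 0 - (1 / (2 * riemannZeta 2)) • D2 S := by
    rw [SL_slash, ← SlashAction.slash_mul]
    have hmul : heckeDiagMatrix p * ((S : SL(2, ℤ)) : GL (Fin 2) ℝ) =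
        ((S : SL(2, ℤ)) : GL (Fin 2) ℝ) * heckeMatrix p 0 := by
      have := heckeDiagMatrix_mul_egRep p 0
      rw [egRep_zero] at this
      exact_mod_cast this
    rw [hmul, SlashAction.slash_mul, ← SL_slash, h1, eis_sub_slash, smul_slash, σ_heckeMatrix,
      D2_S_slash_heckeMatrix_zero]
    rfl
  rw [eisFun, SL_slash, eis_sub_slash, ← SL_slash, ← SL_slash, h1, h2]
  abel

/-! ### Boundedness at the cusps -/

theorem isBoundedAtImInfty_eisFun : IsBoundedAtImInfty (eisFun p) := by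
  have h1 : IsBoundedAtImInfty (E2 ∣[(2 : ℤ)] heckeDiagMatrix p) :=
    IsBoundedAtImInfty.slash 2 (by simp [val_heckeDiagMatrix hpF.out.ne_zero]) isBoundedAtImInfty_E2
  have := isBoundedAtImInfty_E2.add h1.neg_left
  rw [eisFun, sub_eq_add_neg]
  exact this

theorem isBoundedAtImInfty_eisFun_slash_S : IsBoundedAtImInfty (eisFun p ∣[(2 : ℤ)] S) := by
  rw [eisFun_slash_S]
  have h1 : IsBoundedAtImInfty (E2 ∣[(2 : ℤ)] heckeMatrix p 0) :=
    IsBoundedAtImInfty.slash 2 (by simp [val_heckeMatrix hpF.out.ne_zero]) isBoundedAtImInfty_E2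
  have := isBoundedAtImInfty_E2.add h1.neg_left
  rw [sub_eq_add_neg]
  exact this

theorem isBoundedAtImInfty_eisFun_slash (γ : SL(2, ℤ)) :
    IsBoundedAtImInfty (eisFun p ∣[(2 : ℤ)] γ) := by
  rcases eg_exists_coset p γ with hγ | ⟨b, -, hγ⟩
  · rw [eisFun_slash_SL p hγ]
    exact isBoundedAtImInfty_eisFun p
  · have e : γ = (γ * (egRep b)⁻¹) * (S * T ^ (b : ℤ)) := by
      rw [egRep]; group
    rw [e, SlashAction.slash_mul, eisFun_slash_SL p hγ, SlashAction.slash_mul, SL_slash]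
    refine IsBoundedAtImInfty.slash 2 ?_ (isBoundedAtImInfty_eisFun_slash_S p)
    have hT : ((T ^ (b : ℤ) : SL(2, ℤ)) 1 0 : ℤ) = 0 := by
      rw [coe_T_zpow]; simp
    show (((T ^ (b : ℤ) : SL(2, ℤ)) 1 0 : ℤ) : ℝ) = 0
    rw [hT]; simp

theorem mdifferentiable_eisFun :
    MDifferentiable (modelWithCornersSelf ℂ ℂ) (modelWithCornersSelf ℂ ℂ) (eisFun p) := by
  rw [eisFun]
  exact E2_mdifferentiable.sub (E2_mdifferentiable.slash 2 _)

/-- `E₂(z) - p E₂(p z)` as a modular form on `Γ₀(p)` -/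
noncomputable def eisForm0 : ModularForm Γ₀' 2 where
  toFun := eisFun p
  slash_action_eq' x hx := by
    obtain ⟨γ, hγ, rfl⟩ := hx
    have := eisFun_slash_SL p hγ
    rw [SL_slash] at this
    exact this
  holo' := mdifferentiable_eisFun p
  bdd_at_cusps' {c} hc := by
    have hc' : IsCusp c 𝒮ℒ := (Subgroup.IsArithmetic.isCusp_iff_isCusp_SL2Z Γ₀').mp hc
    rw [OnePoint.isBoundedAt_iff_forall_SL2Z hc']
    intro γ _
    exact isBoundedAtImInfty_eisFun_slash p γ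

theorem coe_eisForm0 : ⇑(eisForm0 p) = eisFun p := rfl

/-- **(P-E)** the weight 2 Eisenstein series of level `p`:
`-(1/24) (E₂(z) - p E₂(p z)) = (p - 1)/24 + ∑ σ'(n) q^n`. -/
noncomputable def eisForm : ModularForm Γ₀' 2 := (-(1 / 24 : ℂ)) • eisForm0 p

theorem coe_eisForm : ⇑(eisForm p) = (-(1 / 24 : ℂ)) • eisFun p := rfl

/-! ### The `q`-expansion -/

theorem sum_divisors_filter_dvd {q : ℕ} (hq : q.Prime) (m : ℕ) (hm : m ≠ 0) :
    ∑ d ∈ m.divisors with q ∣ d, (d : ℤ) =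
      if q ∣ m then (q : ℤ) * ∑ e ∈ (m / q).divisors, (e : ℤ) else 0 := by
  split_ifs with h
  · obtain ⟨m', rfl⟩ := h
    have hm' : m' ≠ 0 := by rintro rfl; simp at hm
    rw [Nat.mul_div_cancel_left _ hq.pos, Finset.mul_sum]
    refine (Finset.sum_bij (fun e _ => q * e) ?_ ?_ ?_ ?_).symm
    · intro e he
      rw [Nat.mem_divisors] at he
      rw [Finset.mem_filter, Nat.mem_divisors]
      exact ⟨⟨Nat.mul_dvd_mul_left q he.1, hm⟩, Dvd.intro _ rfl⟩
    · intro a _ b _ h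
      exact Nat.eq_of_mul_eq_mul_left hq.pos h
    · intro d hd
      rw [Finset.mem_filter, Nat.mem_divisors] at hd
      obtain ⟨⟨hd1, _⟩, e, rfl⟩ := hd
      exact ⟨e, Nat.mem_divisors.mpr ⟨(Nat.mul_dvd_mul_iff_left hq.pos).mp hd1, hm'⟩, rfl⟩
    · intro e _
      push_cast
      ring
  · apply Finset.sum_eq_zero
    intro d hd
    rw [Finset.mem_filter, Nat.mem_divisors] at hd
    exact absurd (dvd_trans hd.2 hd.1.1) h

/-- `σ'(m) = σ(m) - [p ∣ m] p σ(m/p)` -/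
theorem eisCoeff_eq_sigma_sub {q : ℕ} (hq : q.Prime) (m : ℕ) (hm : m ≠ 0) :
    eisCoeff q m = (ArithmeticFunction.sigma 1 m : ℤ) -
      if q ∣ m then (q : ℤ) * (ArithmeticFunction.sigma 1 (m / q) : ℤ) else 0 := by
  have h1 : ∀ n : ℕ, (ArithmeticFunction.sigma 1 n : ℤ) = ∑ d ∈ n.divisors, (d : ℤ) := by
    intro n
    rw [ArithmeticFunction.sigma_one_apply]
    push_cast
    rfl
  rw [h1, h1, ← sum_divisors_filter_dvd hq m hm, eisCoeff,
    ← Finset.sum_filter_add_sum_filter_not m.divisors (fun d => q ∣ d)]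
  ring

/-- the coefficients of `E₂` -/
noncomputable def e2Coeff (m : ℕ) : ℂ :=
  if m = 0 then 1 else -24 * (ArithmeticFunction.sigma 1 m : ℂ)

theorem hasSum_E2 (z : ℍ) :
    HasSum (fun m : ℕ => e2Coeff m * Function.Periodic.qParam 1 (z : ℂ) ^ m) (E2 z) := by
  have := hasSum_qExpansion_E2 (z := z)
  simpa only [Function.Periodic.qParam, Complex.ofReal_one, div_one, smul_eq_mul, e2Coeff]
    using this

/-- the coefficients of `E₂(z) - p E₂(p z)` -/
noncomputable def eisFunCoeff (m : ℕ) : ℂ :=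
  e2Coeff m - (p : ℂ) * (if p ∣ m then e2Coeff (m / p) else 0)

theorem hasSum_eisFun (z : ℍ) :
    HasSum (fun m : ℕ => eisFunCoeff p m • Function.Periodic.qParam 1 (z : ℂ) ^ m)
      (eisFun p z) := by
  have h1 := hasSum_E2 z
  have h2 := hasSum_E2 (heckeDiagMatrix p • z)
  rw [qParam_heckeDiagMatrix_smul] at h2
  have hinj : Function.Injective (fun n : ℕ => n * p) :=
    fun a b h => Nat.eq_of_mul_eq_mul_right hpF.out.pos h
  have h3 : HasSum (fun m : ℕ => (if p ∣ m then e2Coeff (m / p) else 0) *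
      Function.Periodic.qParam 1 (z : ℂ) ^ m) (E2 (heckeDiagMatrix p • z)) := by
    rw [← hinj.hasSum_iff]
    · have hfun : ((fun m : ℕ => (if p ∣ m then e2Coeff (m / p) else 0) *
          Function.Periodic.qParam 1 (z : ℂ) ^ m) ∘ fun n : ℕ => n * p) =
          fun n => e2Coeff n * (Function.Periodic.qParam 1 (z : ℂ) ^ p) ^ n := by
        funext n
        simp only [Function.comp_apply]
        rw [if_pos (Dvd.intro_left n rfl), Nat.mul_div_cancel _ hpF.out.pos, pow_mul']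
      rw [hfun]
      exact h2
    · intro m hm
      have hnd : ¬ p ∣ m := by
        rintro ⟨k, rfl⟩
        exact hm ⟨k, by simp [mul_comm]⟩
      simp only [if_neg hnd, zero_mul]
  have h4 := h1.sub (h3.mul_left (p : ℂ))
  rw [eisFun_apply]
  have hfun : (fun m : ℕ => eisFunCoeff p m • Function.Periodic.qParam 1 (z : ℂ) ^ m) =
      fun m => e2Coeff m * Function.Periodic.qParam 1 (z : ℂ) ^ m -
        (p : ℂ) * ((if p ∣ m then e2Coeff (m / p) else 0) *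
          Function.Periodic.qParam 1 (z : ℂ) ^ m) := by
    funext m
    simp only [eisFunCoeff, smul_eq_mul]
    ring
  rw [hfun]
  exact h4

theorem qCoeff_eisForm0 (m : ℕ) : qCoeff ⇑(eisForm0 p) m = eisFunCoeff p m :=
  (ModularFormClass.qExpansion_coeff_unique (f := eisForm0 p) one_pos
    (one_mem_strictPeriods_gamma0 p) (hasSum_eisFun p) m).symm

theorem qCoeff_eisForm_eq (m : ℕ) : qCoeff ⇑(eisForm p) m = -(1 / 24 : ℂ) * eisFunCoeff p m := by
  rw [qCoeff, eisForm, FunLike.coe_smul,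
    ModularForm.qExpansion_smul one_pos (one_mem_strictPeriods_gamma0 p), PowerSeries.coeff_smul,
    smul_eq_mul]
  congr 1
  exact qCoeff_eisForm0 p m

/-- the constant term of the Eisenstein series -/
theorem qCoeff_eisForm_zero : qCoeff ⇑(eisForm p) 0 = ((p : ℂ) - 1) / 24 := by
  rw [qCoeff_eisForm_eq, eisFunCoeff, if_pos (dvd_zero p), Nat.zero_div, e2Coeff, if_pos rfl]
  ring

/-- the higher coefficients of the Eisenstein series -/
theorem qCoeff_eisForm {n : ℕ} (hn : 1 ≤ n) : qCoeff ⇑(eisForm p) n = (eisCoeff p n : ℂ) := by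
  have hn0 : n ≠ 0 := by omega
  rw [qCoeff_eisForm_eq, eisFunCoeff, eisCoeff_eq_sigma_sub hpF.out n hn0, e2Coeff, if_neg hn0]
  split_ifs with h
  · have hnp : n / p ≠ 0 := by
      obtain ⟨k, rfl⟩ := h
      rw [Nat.mul_div_cancel_left _ hpF.out.pos]
      rintro rfl
      simp at hn0
    rw [e2Coeff, if_neg hnp]
    push_cast
    ring
  · push_cast
    ring

end Fermat.Agent.Eis
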