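import Mathlib
import Fermat.Agent.Lib.Eis.Level.SlashS

/-!
# P11 (S16), package P: a weight 2 form on `Γ₀(p)` with vanishing constant term is a cusp form

`Γ₀(p)` has the two cusps `∞` and `0`, and the constant term of `G ∣ S` is `-(1/p) a₀(G)`.
-/

set_option autoImplicit false

open scoped MatrixGroups ModularForm
open UpperHalfPlane ModularGroup CongruenceSubgroup Matrix.SpecialLinearGroup ModularForm
  ModularFormClass Filter Topology

namespace Fermat.Agent.Eis

/-- a `1`-periodic holomorphic bounded function with vanishing constant term is zero at `i∞` -/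
theorem isZeroAtImInfty_of_qCoeff_zero {f : ℍ → ℂ}
    (hper : Function.Periodic (f ∘ UpperHalfPlane.ofComplex) 1)
    (hhol : MDifferentiable (modelWithCornersSelf ℂ ℂ) (modelWithCornersSelf ℂ ℂ) f)
    (hbdd : IsBoundedAtImInfty f) (h0 : qCoeff f 0 = 0) : IsZeroAtImInfty f := by
  have hv : valueAtInfty f = 0 := by
    rw [← qExpansion_coeff_zero one_pos (analyticAt_cuspFunction_zero one_pos hper hhol hbdd) hper]
    exact h0
  have h1 := exp_decay_sub_atImInfty one_pos hper hhol hbdd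
  rw [hv] at h1
  simp only [sub_zero, div_one] at h1
  refine h1.trans_tendsto ?_
  have h2 : Tendsto (fun τ : ℍ => τ.im) atImInfty atTop := tendsto_comap
  have h3 : Tendsto (fun y : ℝ => Real.exp (-2 * Real.pi * y)) atTop (𝓝 0) := by
    have : Tendsto (fun y : ℝ => (2 * Real.pi) * y) atTop atTop :=
      tendsto_id.const_mul_atTop (by positivity)
    have h4 := Real.tendsto_exp_neg_atTop_nhds_zero.comp this
    refine h4.congr fun y => ?_
    simp only [Function.comp_apply]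
    congr 1
    ring
  exact h3.comp h2

variable (p : ℕ) [hpF : Fact p.Prime]

local notation "Γ₀'" => (Subgroup.map (mapGL ℝ) (Gamma0 p))

theorem isZeroAtImInfty_of_qCoeff_zero_gamma0 (G : ModularForm Γ₀' 2) (h0 : qCoeff ⇑G 0 = 0) :
    IsZeroAtImInfty ⇑G := by
  have hΓ : (1 : ℝ) ∈ (Γ₀').strictPeriods := CongruenceSubgroup.one_mem_strictPeriods_Gamma0 p
  exact isZeroAtImInfty_of_qCoeff_zero (SlashInvariantFormClass.periodic_comp_ofComplex G hΓ)
    (ModularFormClass.holo G) (ModularFormClass.bdd_at_infty G) h0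

theorem isZeroAtImInfty_heckeU_of_qCoeff_zero (G : ModularForm Γ₀' 2) (h0 : qCoeff ⇑G 0 = 0) :
    IsZeroAtImInfty (heckeU 2 p ⇑G) := by
  have hΓ : (1 : ℝ) ∈ (Γ₀').strictPeriods := CongruenceSubgroup.one_mem_strictPeriods_Gamma0 p
  have hper : Function.Periodic (⇑G ∘ UpperHalfPlane.ofComplex) 1 :=
    SlashInvariantFormClass.periodic_comp_ofComplex G hΓ
  refine isZeroAtImInfty_of_qCoeff_zero (periodic_heckeU_comp_ofComplex hper 2 p)
    (mdifferentiable_heckeU (ModularFormClass.holo G) 2 p)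
    (isBoundedAtImInfty_heckeU (ModularFormClass.bdd_at_infty G) 2 p) ?_
  rw [ModularFormClass.qCoeff_heckeU G hΓ hpF.out.ne_zero 0, coeffHeckeU_apply, zero_mul]
  exact h0

/-- all `SL(2, ℤ)`-translates of `G` vanish at `i∞` -/
theorem isZeroAtImInfty_slash_of_qCoeff_zero (G : ModularForm Γ₀' 2) (h0 : qCoeff ⇑G 0 = 0)
    (γ : SL(2, ℤ)) : IsZeroAtImInfty (⇑G ∣[(2 : ℤ)] γ) := by
  rcases eg_exists_coset p γ with hγ | ⟨b, -, hγ⟩
  · have : ⇑G ∣[(2 : ℤ)] γ = ⇑G := by
      rw [SL_slash]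
      exact SlashInvariantFormClass.slash_action_eq G _ ⟨γ, hγ, rfl⟩
    rw [this]
    exact isZeroAtImInfty_of_qCoeff_zero_gamma0 p G h0
  · have e : γ = (γ * (egRep b)⁻¹) * (S * T ^ (b : ℤ)) := by
      rw [egRep]; group
    have h1 : ⇑G ∣[(2 : ℤ)] (γ * (egRep b)⁻¹) = ⇑G := by
      rw [SL_slash]
      exact SlashInvariantFormClass.slash_action_eq G _ ⟨_, hγ, rfl⟩
    rw [e, SlashAction.slash_mul, h1, SlashAction.slash_mul, slash_S_eq_slash_heckeMatrix]
    have h2 : IsZeroAtImInfty (- heckeU 2 p ⇑G) := by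
      have := isZeroAtImInfty_heckeU_of_qCoeff_zero p G h0
      rw [IsZeroAtImInfty, ZeroAtFilter] at this ⊢
      have h := this.neg
      rw [neg_zero] at h
      exact h
    have h3 : IsZeroAtImInfty ((- heckeU 2 p ⇑G) ∣[(2 : ℤ)] heckeMatrix p 0) :=
      IsZeroAtImInfty.slash 2 (by simp [val_heckeMatrix hpF.out.ne_zero]) h2
    rw [SL_slash]
    refine IsZeroAtImInfty.slash 2 ?_ h3
    have hT : ((T ^ (b : ℤ) : SL(2, ℤ)) 1 0 : ℤ) = 0 := by
      rw [coe_T_zpow]; simp
    show (((T ^ (b : ℤ) : SL(2, ℤ)) 1 0 : ℤ) : ℝ) = 0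
    rw [hT]; simp

/-- **(P-cusp)** a weight 2 modular form on `Γ₀(p)` with vanishing constant term is a cusp form. -/
theorem exists_cuspForm_of_qCoeff_zero (G : ModularForm Γ₀' 2) (h0 : qCoeff ⇑G 0 = 0) :
    ∃ f : CuspForm Γ₀' 2, ⇑f = ⇑G := by
  refine ⟨{ toSlashInvariantForm := G.toSlashInvariantForm
            holo' := G.holo'
            zero_at_cusps' := fun {c} hc => ?_ }, rfl⟩
  have hc' : IsCusp c 𝒮ℒ := (Subgroup.IsArithmetic.isCusp_iff_isCusp_SL2Z Γ₀').mp hc
  rw [OnePoint.isZeroAt_iff_forall_SL2Z hc']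
  intro γ _
  exact isZeroAtImInfty_slash_of_qCoeff_zero p G h0 γ

end Fermat.Agent.Eis
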