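import Mathlib
import Fermat.Agent.Lib.Eis.Geom.Gamma0Orbit

/-!
# P11 (S16), package P: the trace from `Γ₀(p)` to `SL(2, ℤ)`, explicitly

For `p` prime, `SL(2, ℤ) = Γ₀(p) ⊔ ⨆_{b < p} Γ₀(p) S T^b`, so for a modular form `f` on `Γ₀(p)`,
`Tr f = f + ∑_{b < p} f ∣ S T^b` (`coe_trace_gamma0`).
-/

set_option autoImplicit false

open scoped MatrixGroups ModularForm
open UpperHalfPlane ModularGroup CongruenceSubgroup Matrix.SpecialLinearGroup

namespace Fermat.Agent.Eis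

variable (p : ℕ) [hpF : Fact p.Prime]

local notation "Γ₀'" => (Subgroup.map (mapGL ℝ) (Gamma0 p))

theorem mapGL_mem_gamma0_iff (γ : SL(2, ℤ)) :
    mapGL ℝ γ ∈ Γ₀' ↔ γ ∈ Gamma0 p :=
  Subgroup.mem_map_iff_mem mapGL_injective

theorem egRep_coe (b : ℕ) :
    ((egRep b : SL(2, ℤ)) : Matrix (Fin 2) (Fin 2) ℤ) = !![0, -1; 1, (b : ℤ)] := by
  ext i j
  simp only [egRep, Matrix.SpecialLinearGroup.coe_mul, coe_S, coe_T_zpow]
  fin_cases i <;> fin_cases j <;> simp [Matrix.mul_apply, Fin.sum_univ_two]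

theorem egRep_not_mem (b : ℕ) : egRep b ∉ Gamma0 p := by
  rw [Gamma0_mem, egRep_coe]
  simp only [Matrix.of_apply, Matrix.cons_val', Matrix.cons_val_zero, Matrix.cons_val_one,
    Matrix.empty_val', Matrix.cons_val_fin_one]
  have := hpF.out.one_lt
  haveI : Fact (1 < p) := ⟨this⟩
  simp

theorem egRep_mul_inv_mem_iff {b b' : ℕ} (hb : b < p) (hb' : b' < p) :
    egRep b * (egRep b')⁻¹ ∈ Gamma0 p ↔ b = b' := by
  rw [Gamma0_mem, egRep_inv]
  have h10 : ((egRep b * egRepInv (b' : ℤ) : SL(2, ℤ)) 1 0 : ℤ) = (b' : ℤ) - b := by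
    rw [Matrix.SpecialLinearGroup.coe_mul, egRep_coe, egRepInv_coe, Matrix.mul_apply,
      Fin.sum_univ_two]
    simp
    ring
  rw [h10]
  push_cast
  rw [sub_eq_zero]
  constructor
  · intro h
    have := (ZMod.natCast_eq_natCast_iff' b' b p).mp h
    rw [Nat.mod_eq_of_lt hb, Nat.mod_eq_of_lt hb'] at this
    exact this.symm
  · rintro rfl; rfl

/-- the coset representatives: `1` and `(S T^b)⁻¹` -/
noncomputable def cosetRep : Option (Fin p) → SL(2, ℤ)
  | none => 1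
  | some b => (egRep (b : ℕ))⁻¹

/-- the classes of the coset representatives in `SL(2, ℤ) / Γ₀(p)` -/
noncomputable def cosetMk (o : Option (Fin p)) : (𝒮ℒ ⧸ (Γ₀').subgroupOf 𝒮ℒ) :=
  QuotientGroup.mk (⟨mapGL ℝ (cosetRep p o), ⟨_, rfl⟩⟩ : 𝒮ℒ)

theorem cosetMk_eq_iff (γ γ' : SL(2, ℤ)) :
    (QuotientGroup.mk (⟨mapGL ℝ γ, ⟨_, rfl⟩⟩ : 𝒮ℒ) : (𝒮ℒ ⧸ (Γ₀').subgroupOf 𝒮ℒ)) =
      QuotientGroup.mk (⟨mapGL ℝ γ', ⟨_, rfl⟩⟩ : 𝒮ℒ) ↔ γ⁻¹ * γ' ∈ Gamma0 p := by
  rw [QuotientGroup.eq, Subgroup.mem_subgroupOf, ← mapGL_mem_gamma0_iff]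
  simp

theorem cosetMk_bijective : Function.Bijective (cosetMk p) := by
  constructor
  · intro o o' h
    unfold cosetMk at h
    rw [cosetMk_eq_iff] at h
    rcases o with _ | b <;> rcases o' with _ | b'
    · rfl
    · exfalso
      simp only [cosetRep, inv_one, one_mul] at h
      exact egRep_not_mem p _ (by simpa using inv_mem h)
    · exfalso
      simp only [cosetRep, inv_inv, mul_one] at h
      exact egRep_not_mem p _ h
    · simp only [cosetRep, inv_inv] at h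
      have := (egRep_mul_inv_mem_iff p b.2 b'.2).mp h
      exact congrArg some (Fin.ext this)
  · intro q
    induction q using QuotientGroup.induction_on with
    | H h =>
      obtain ⟨h, γ, rfl⟩ := h
      rcases eg_exists_coset p γ⁻¹ with hγ | ⟨b, hb, hγ⟩
      · refine ⟨none, ?_⟩
        unfold cosetMk
        rw [cosetMk_eq_iff]
        simpa [cosetRep] using inv_mem hγ
      · refine ⟨some ⟨b, hb⟩, ?_⟩
        unfold cosetMk
        rw [cosetMk_eq_iff]
        simp only [cosetRep, inv_inv]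
        have := inv_mem hγ
        simpa [mul_inv_rev] using this

/-- **The trace formula** `Tr f = f + ∑_b f ∣ S T^b`. -/
theorem coe_trace_gamma0 {F : Type*} [FunLike F ℍ ℂ] {k : ℤ} [ModularFormClass F Γ₀' k] (f : F) :
    ⇑(ModularForm.trace 𝒮ℒ f) =
      ⇑f + ∑ b ∈ Finset.range p, (⇑f ∣[k] (egRep b)) := by
  rw [ModularForm.coe_trace]
  letI := Fintype.ofFinite (𝒮ℒ ⧸ (Γ₀').subgroupOf 𝒮ℒ)
  rw [← (Equiv.ofBijective _ (cosetMk_bijective p)).sum_comp]
  rw [Fintype.sum_option]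
  congr 1
  · simp only [Equiv.ofBijective_apply, cosetMk, cosetRep]
    rw [QuotientGroup.mk, SlashInvariantForm.quotientFunc_mk]
    simp
  · rw [Finset.sum_range]
    refine Finset.sum_congr rfl fun b _ => ?_
    simp only [Equiv.ofBijective_apply, cosetMk, cosetRep]
    rw [QuotientGroup.mk, SlashInvariantForm.quotientFunc_mk]
    simp only [map_inv, inv_inv]
    rfl

end Fermat.Agent.Eis
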