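import Mathlib
import Fermat.Prelude.Def_ModularForm_HeckeOperator
import Fermat.Agent.Lib.Eis.Level.Cosets

/-!
# P11 (S16), package P: level raising `V_p` and the Atkin–Lehner involution `W_p` on `Γ₀(p)`

* `mfTranslate f g h`: the modular form `f ∣ g` on any subgroup `Γ' ≤ g⁻¹ Γ g`;
* `levelRaise p F`: for `F` of level one, the form `F ∣[K] diag(p, 1) = p^(K-1) F(p z)` on `Γ₀(p)`;
* `atkinLehner p G`: for `G` on `Γ₀(p)`, the form `G ∣[k] W`, `W = [[0, 1], [-p, 0]]`, on `Γ₀(p)`;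
* the matrix identities `diag(p,1) · S T^b = S · [[1, b], [0, p]]` and `W · S T^b = [[1, b], [0, p]]`.
-/

set_option autoImplicit false

open scoped MatrixGroups ModularForm
open UpperHalfPlane ModularGroup CongruenceSubgroup Matrix.SpecialLinearGroup ModularForm

namespace Fermat.Agent.Eis

open ConjAct Pointwise in
/-- restriction of a translate `f ∣ g` to a subgroup of `g⁻¹ Γ g` -/
noncomputable def mfTranslate {Γ Γ' : Subgroup (GL (Fin 2) ℝ)} {k : ℤ} (f : ModularForm Γ k)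
    (g : GL (Fin 2) ℝ) (h : Γ' ≤ toConjAct g⁻¹ • Γ) : ModularForm Γ' k where
  toFun := ⇑f ∣[k] g
  slash_action_eq' γ hγ := (ModularForm.translate f g).slash_action_eq' γ (h hγ)
  holo' := (ModularForm.translate f g).holo'
  bdd_at_cusps' hc := (ModularForm.translate f g).bdd_at_cusps' (hc.mono h)

open ConjAct Pointwise in
theorem coe_mfTranslate {Γ Γ' : Subgroup (GL (Fin 2) ℝ)} {k : ℤ} (f : ModularForm Γ k)
    (g : GL (Fin 2) ℝ) (h : Γ' ≤ toConjAct g⁻¹ • Γ) : ⇑(mfTranslate f g h) = ⇑f ∣[k] g := rfl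

open ConjAct Pointwise in
theorem le_conjAct_inv_smul {Γ Γ' : Subgroup (GL (Fin 2) ℝ)} (g : GL (Fin 2) ℝ)
    (h : ∀ x ∈ Γ', g * x * g⁻¹ ∈ Γ) : Γ' ≤ toConjAct g⁻¹ • Γ := by
  intro x hx
  rw [map_inv, Subgroup.mem_inv_pointwise_smul_iff, toConjAct_smul]
  exact h x hx

variable (p : ℕ) [hpF : Fact p.Prime]

local notation "Γ₀'" => (Subgroup.map (mapGL ℝ) (Gamma0 p))

/-- the Atkin–Lehner matrix `[[0, 1], [-p, 0]]` -/
noncomputable def atkinW : GL (Fin 2) ℝ :=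
  Matrix.GeneralLinearGroup.mkOfDetNeZero !![0, 1; -(p : ℝ), 0] (by
    rw [Matrix.det_fin_two_of]
    have : (p : ℝ) ≠ 0 := by exact_mod_cast hpF.out.ne_zero
    simpa using this)

theorem val_atkinW : ((atkinW p : GL (Fin 2) ℝ) : Matrix (Fin 2) (Fin 2) ℝ) =
    !![0, 1; -(p : ℝ), 0] := rfl

theorem det_atkinW : ((atkinW p).det : ℝ) = p := by
  rw [Matrix.GeneralLinearGroup.val_det_apply, val_atkinW, Matrix.det_fin_two_of]
  ring

/-- for `γ ∈ Γ₀(p)`, the lower left entry is `p c'` -/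
theorem exists_lower_left_eq {γ : SL(2, ℤ)} (hγ : γ ∈ Gamma0 p) : ∃ c' : ℤ, γ 1 0 = p * c' := by
  rw [Gamma0_mem, ZMod.intCast_zmod_eq_zero_iff_dvd] at hγ
  exact hγ

/-- `diag(p,1) γ diag(p,1)⁻¹ ∈ SL(2, ℤ)` for `γ ∈ Γ₀(p)` -/
theorem heckeDiagMatrix_conj_mem (x : GL (Fin 2) ℝ) (hx : x ∈ Γ₀') :
    heckeDiagMatrix p * x * (heckeDiagMatrix p)⁻¹ ∈ 𝒮ℒ := by
  obtain ⟨γ, hγ, rfl⟩ := hx
  obtain ⟨c', hc'⟩ := exists_lower_left_eq p hγ
  have hdet := γ.det_coe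
  rw [Matrix.det_fin_two, hc'] at hdet
  let γ' : SL(2, ℤ) := ⟨!![γ 0 0, p * γ 0 1; c', γ 1 1], by
    rw [Matrix.det_fin_two_of]; linarith⟩
  refine ⟨γ', ?_⟩
  rw [eq_mul_inv_iff_mul_eq]
  apply Matrix.GeneralLinearGroup.ext
  intro i j
  rw [Matrix.GeneralLinearGroup.coe_mul, Matrix.GeneralLinearGroup.coe_mul, mapGL_coe_matrix,
    mapGL_coe_matrix, val_heckeDiagMatrix hpF.out.ne_zero]
  fin_cases i <;> fin_cases j <;>
    simp [Matrix.mul_apply, Fin.sum_univ_two, γ', hc', mul_comm]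

/-- `W γ W⁻¹ ∈ Γ₀(p)` for `γ ∈ Γ₀(p)` -/
theorem atkinW_conj_mem (x : GL (Fin 2) ℝ) (hx : x ∈ Γ₀') :
    atkinW p * x * (atkinW p)⁻¹ ∈ Γ₀' := by
  obtain ⟨γ, hγ, rfl⟩ := hx
  obtain ⟨c', hc'⟩ := exists_lower_left_eq p hγ
  have hdet := γ.det_coe
  rw [Matrix.det_fin_two, hc'] at hdet
  let γ' : SL(2, ℤ) := ⟨!![γ 1 1, -c'; -(p * γ 0 1), γ 0 0], by
    rw [Matrix.det_fin_two_of]; linarith⟩
  refine ⟨γ', ?_, ?_⟩
  · rw [SetLike.mem_coe, Gamma0_mem]
    simp [γ']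
  · rw [eq_mul_inv_iff_mul_eq]
    apply Matrix.GeneralLinearGroup.ext
    intro i j
    rw [Matrix.GeneralLinearGroup.coe_mul, Matrix.GeneralLinearGroup.coe_mul, mapGL_coe_matrix,
      mapGL_coe_matrix, val_atkinW]
    fin_cases i <;> fin_cases j <;>
      simp [Matrix.mul_apply, Fin.sum_univ_two, γ', hc', mul_comm]

/-- `F ∣[K] diag(p, 1)`, a modular form on `Γ₀(p)`, for `F` of level one -/
noncomputable def levelRaise {K : ℤ} (F : ModularForm 𝒮ℒ K) : ModularForm Γ₀' K :=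
  mfTranslate F (heckeDiagMatrix p) (le_conjAct_inv_smul _ (heckeDiagMatrix_conj_mem p))

theorem coe_levelRaise {K : ℤ} (F : ModularForm 𝒮ℒ K) :
    ⇑(levelRaise p F) = ⇑F ∣[K] heckeDiagMatrix p := rfl

/-- `G ∣[k] W`, a modular form on `Γ₀(p)` -/
noncomputable def atkinLehner {k : ℤ} (G : ModularForm Γ₀' k) : ModularForm Γ₀' k :=
  mfTranslate G (atkinW p) (le_conjAct_inv_smul _ (atkinW_conj_mem p))

theorem coe_atkinLehner {k : ℤ} (G : ModularForm Γ₀' k) :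
    ⇑(atkinLehner p G) = ⇑G ∣[k] atkinW p := rfl

/-! ### Matrix identities -/

theorem heckeDiagMatrix_mul_egRep (b : ℕ) :
    heckeDiagMatrix p * mapGL ℝ (egRep b) = mapGL ℝ S * heckeMatrix p b := by
  apply Matrix.GeneralLinearGroup.ext
  intro i j
  rw [Matrix.GeneralLinearGroup.coe_mul, Matrix.GeneralLinearGroup.coe_mul, mapGL_coe_matrix,
    mapGL_coe_matrix, val_heckeDiagMatrix hpF.out.ne_zero, val_heckeMatrix hpF.out.ne_zero,
    Matrix.SpecialLinearGroup.map_apply_coe, Matrix.SpecialLinearGroup.map_apply_coe,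
    egRep_coe, coe_S]
  fin_cases i <;> fin_cases j <;> simp [Matrix.mul_apply, Fin.sum_univ_two]

theorem atkinW_mul_egRep (b : ℕ) :
    atkinW p * mapGL ℝ (egRep b) = heckeMatrix p b := by
  apply Matrix.GeneralLinearGroup.ext
  intro i j
  rw [Matrix.GeneralLinearGroup.coe_mul, mapGL_coe_matrix, val_atkinW,
    val_heckeMatrix hpF.out.ne_zero, Matrix.SpecialLinearGroup.map_apply_coe, egRep_coe]
  fin_cases i <;> fin_cases j <;> simp [Matrix.mul_apply, Fin.sum_univ_two]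

end Fermat.Agent.Eis
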